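import Fermat.Agent.S49.M3.QCoeff

set_option autoImplicit false
open CuspForm CongruenceSubgroup ModularFormClass UpperHalfPlane

namespace Fermat.Agent.S49.M3

variable {N : ℕ} {k : ℤ}

theorem mem_intLattice_iff (f : CuspForm (Gamma0 N) k) :
    f ∈ intLattice N k ↔ ∀ n, ∃ m : ℤ, qc N k n f = (m : ℂ) := by
  constructor
  · intro hf
    unfold intLattice at hf
    induction hf using Submodule.span_induction with
    | mem x hx => exact hx
    | zero => intro n; exact ⟨0, by simp⟩
    | add x y _ _ hx hy =>
      intro n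
      obtain ⟨a, ha⟩ := hx n
      obtain ⟨b, hb⟩ := hy n
      exact ⟨a + b, by rw [map_add, ha, hb]; push_cast; ring⟩
    | smul c x _ hx =>
      intro n
      obtain ⟨a, ha⟩ := hx n
      exact ⟨c * a, by rw [map_zsmul, ha]; push_cast; simp⟩
  · intro hf
    exact Submodule.subset_span hf

theorem qIntegralSet_subset (f : CuspForm (Gamma0 N) 2) (hf : f ∈ qIntegralSet N) :
    f ∈ intLattice N 2 := by
  rw [mem_intLattice_iff]
  intro n
  obtain ⟨m, hm⟩ := Subring.mem_bot.mp (hf n)
  exact ⟨m, hm.symm⟩

theorem span_intLattice_eq_top (h : HasIntegralBasis N) :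
    Submodule.span ℂ ((intLattice N 2 : Submodule ℤ (CuspForm (Gamma0 N) 2)) :
      Set (CuspForm (Gamma0 N) 2)) = ⊤ := by
  rw [eq_top_iff, ← h]
  exact Submodule.span_mono qIntegralSet_subset

theorem finiteDimensional_of_hasIntegralBasis [NeZero N] (h : HasIntegralBasis N) :
    FiniteDimensional ℂ (CuspForm (Gamma0 N) 2) := by
  obtain ⟨S, hS⟩ := intLattice_fg N 2
  refine ⟨⟨S, ?_⟩⟩
  rw [eq_top_iff, ← span_intLattice_eq_top h, Submodule.span_le, ← hS]
  intro x hx
  exact Submodule.span_subset_span ℤ ℂ _ hx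

/-- Restriction of Hecke operators to the integral lattice. -/
noncomputable def restrictL (N : ℕ) [NeZero N] :
    heckeAlgebra N 2 ∅ →ₐ[ℤ] Module.End ℤ (intLattice N 2) :=
  AlgHom.ofLinearMap
    { toFun := fun t =>
        ((t : Module.End ℂ (CuspForm (Gamma0 N) 2)).restrictScalars ℤ).restrict
          (fun _ hf => mem_intLattice_of_mem_heckeAlgebra one_le_two t.2 hf)
      map_add' := by intro x y; ext; rfl
      map_smul' := by intro r s; ext; rfl }
    (by ext; rfl)
    (by intro x y; ext; rfl)

theorem restrictL_injective [NeZero N] (h : HasIntegralBasis N) :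
    Function.Injective (restrictL N) := by
  intro s t hst
  apply Subtype.ext
  apply LinearMap.ext_on (span_intLattice_eq_top h)
  intro x hx
  have := congrArg Subtype.val (LinearMap.congr_fun hst ⟨x, hx⟩)
  exact this

theorem isIntegral_heckeAlgebra [NeZero N] (h : HasIntegralBasis N) (t : heckeAlgebra N 2 ∅) :
    IsIntegral ℤ t := by
  haveI : Module.Finite ℤ (intLattice N 2) := Module.Finite.iff_fg.mpr (intLattice_fg N 2)
  exact (isIntegral_algHom_iff (restrictL N) (restrictL_injective h)).mp
    (Algebra.IsIntegral.isIntegral _)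

end Fermat.Agent.S49.M3
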