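import Fermat.Agent.S49.M3.Eigenform

set_option autoImplicit false
open CuspForm CongruenceSubgroup ModularFormClass UpperHalfPlane EisensteinWeightOne

namespace Fermat.Agent.S49.M3

/-- All `q`-coefficients are `3 ×` an integer. -/
def Div3 {N : ℕ} (g : CuspForm (Gamma0 N) 2) : Prop := ∀ n, ∃ m : ℤ, qc N 2 n g = 3 * (m : ℂ)

variable {N : ℕ}

theorem Div3.exists_eq_smul {g : CuspForm (Gamma0 N) 2} (hg : Div3 g) :
    ∃ g' ∈ intLattice N 2, g = (3 : ℂ) • g' := by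
  refine ⟨(3 : ℂ)⁻¹ • g, ?_, ?_⟩
  · rw [mem_intLattice_iff]
    intro n
    obtain ⟨m, hm⟩ := hg n
    exact ⟨m, by rw [map_smul, hm, smul_eq_mul]; field_simp⟩
  · rw [smul_smul, mul_inv_cancel₀ (by norm_num), one_smul]

theorem div3_smul_of_mem {g : CuspForm (Gamma0 N) 2} (hg : g ∈ intLattice N 2) :
    Div3 ((3 : ℂ) • g) := by
  intro n
  obtain ⟨m, hm⟩ := (mem_intLattice_iff g).mp hg n
  exact ⟨m, by rw [map_smul, hm, smul_eq_mul]⟩

theorem Div3.hecke [NeZero N] {g : CuspForm (Gamma0 N) 2} (hg : Div3 g) (t : heckeAlgebra N 2 ∅) :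
    Div3 ((t : Module.End ℂ (CuspForm (Gamma0 N) 2)) g) := by
  obtain ⟨g', hg', rfl⟩ := hg.exists_eq_smul
  rw [map_smul]
  exact div3_smul_of_mem (mem_intLattice_of_mem_heckeAlgebra one_le_two t.2 hg')

theorem Div3.add {g h : CuspForm (Gamma0 N) 2} (hg : Div3 g) (hh : Div3 h) : Div3 (g + h) := by
  intro n
  obtain ⟨a, ha⟩ := hg n
  obtain ⟨b, hb⟩ := hh n
  exact ⟨a + b, by rw [map_add, ha, hb]; push_cast; ring⟩

theorem div3_zero : Div3 (0 : CuspForm (Gamma0 N) 2) := fun n => ⟨0, by simp⟩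

/-- The annihilator of `f0` modulo `3`. -/
def mod3Ideal [NeZero N] (f0 : CuspForm (Gamma0 N) 2) : Ideal (heckeAlgebra N 2 ∅) where
  carrier := {t | Div3 ((t : Module.End ℂ (CuspForm (Gamma0 N) 2)) f0)}
  add_mem' := fun hs ht => Div3.add hs ht
  zero_mem' := div3_zero
  smul_mem' := fun s _ ht => Div3.hecke ht s

theorem mem_mod3Ideal [NeZero N] (f0 : CuspForm (Gamma0 N) 2) (t : heckeAlgebra N 2 ∅) :
    t ∈ mod3Ideal f0 ↔ Div3 ((t : Module.End ℂ (CuspForm (Gamma0 N) 2)) f0) := Iff.rfl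

theorem e1Chi3In_eq : e1Chi3In ℤ = 1 + PowerSeries.C (3 : ℤ) *
    PowerSeries.mk (fun n => if n = 0 then 0 else 2 * sigmaChi n) := by
  ext n
  simp only [e1Chi3In, e1Chi3, PowerSeries.coeff_map, PowerSeries.coeff_mk, map_add,
    PowerSeries.coeff_one, PowerSeries.coeff_C_mul]
  split_ifs
  · simp
  · simp; ring

theorem three_dvd_bridge (a : ℕ → ℤ) (n : ℕ) : (3 : ℤ) ∣ (bridgeProduct a).coeff n - a n := by
  unfold bridgeProduct
  rw [e1Chi3In_eq, mul_add, mul_one, map_add, PowerSeries.coeff_mk, mul_left_comm,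
    PowerSeries.coeff_C_mul, add_sub_cancel_left]
  exact dvd_mul_right _ _

theorem three_dvd_chi (p : ℕ) : (3 : ℤ) ∣ (p : ℤ) - chiNegThree p := by
  unfold chiNegThree
  split_ifs <;> omega

theorem intCast_apply [NeZero N] (z : ℤ) (f : CuspForm (Gamma0 N) 2) :
    ((z : heckeAlgebra N 2 ∅) : Module.End ℂ (CuspForm (Gamma0 N) 2)) f = (z : ℂ) • f := by
  have h1 : ((z : heckeAlgebra N 2 ∅) : Module.End ℂ (CuspForm (Gamma0 N) 2)) =
      (z : Module.End ℂ (CuspForm (Gamma0 N) 2)) := rfl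
  rw [h1, Module.End.intCast_apply, Int.cast_smul_eq_zsmul]

section facts

variable [NeZero N] {a : ℕ → ℤ}
    (heig : FormalHecke.IsEigensystem
      (fun ℓ => if ℓ ∣ N then 0 else ((chiNegThree ℓ : ℤ) : ℤ)) a)
    (f0 : CuspForm (Gamma0 N) 2) (af : ℕ → ℤ) (haf : ∀ n, (af n : ℂ) = qCoeff f0 n)
    (h3 : ∀ n, (3 : ℤ) ∣ af n - (bridgeProduct a).coeff n)

include h3 in
theorem three_dvd_af_sub (n : ℕ) : (3 : ℤ) ∣ af n - a n := by
  have := dvd_add (h3 n) (three_dvd_bridge a n)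
  simpa using this

include heig haf h3 in
theorem one_notMem_mod3Ideal : (1 : heckeAlgebra N 2 ∅) ∉ mod3Ideal f0 := by
  intro h
  rw [mem_mod3Ideal] at h
  obtain ⟨m, hm⟩ := h 1
  have h1 : qc N 2 1 f0 = (af 1 : ℂ) := (haf 1).symm
  have h2 : (af 1 : ℂ) = ((3 * m : ℤ) : ℂ) := by
    rw [← h1]; push_cast; exact hm
  have h4 : af 1 = 3 * m := by exact_mod_cast h2
  have h5 := three_dvd_af_sub af h3 1
  rw [heig.1, h4] at h5
  omega

include haf in
theorem three_mem_mod3Ideal : (3 : heckeAlgebra N 2 ∅) ∈ mod3Ideal f0 := by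
  rw [mem_mod3Ideal]
  intro n
  refine ⟨af n, ?_⟩
  have : ((3 : heckeAlgebra N 2 ∅) : Module.End ℂ (CuspForm (Gamma0 N) 2)) f0 = (3 : ℂ) • f0 := by
    have := intCast_apply 3 f0
    simpa using this
  rw [this, map_smul, smul_eq_mul, haf n]
  rfl

include heig haf h3 in
theorem gen_sub_mem_mod3Ideal (p : ℕ) (hp : p.Prime) :
    gen N p hp - (a p : heckeAlgebra N 2 ∅) ∈ mod3Ideal f0 := by
  rw [mem_mod3Ideal]
  intro n
  have hsub : ((gen N p hp - (a p : heckeAlgebra N 2 ∅) : heckeAlgebra N 2 ∅) :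
      Module.End ℂ (CuspForm (Gamma0 N) 2)) f0 =
      (gen N p hp : Module.End ℂ (CuspForm (Gamma0 N) 2)) f0 - (a p : ℂ) • f0 := by
    rw [← intCast_apply]; rfl
  rw [hsub, map_sub, map_smul, qc_gen, smul_eq_mul]
  have hq : ∀ n, qc N 2 n f0 = (af n : ℂ) := fun n => (haf n).symm
  obtain ⟨d1, hd1⟩ := three_dvd_af_sub af h3 (p * n)
  obtain ⟨d2, hd2⟩ := three_dvd_af_sub af h3 (n / p)
  obtain ⟨d3, hd3⟩ := three_dvd_af_sub af h3 n
  obtain ⟨u, hu⟩ := three_dvd_chi p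
  have hrel := heig.2 p hp n
  simp only at hrel
  rw [hq, hq, hq]
  unfold e2
  by_cases hpN : p ∣ N
  · rw [if_pos hpN] at hrel ⊢
    refine ⟨d1 - a p * d3, ?_⟩
    have : af (p * n) + 0 * (if p ∣ n then af (n / p) else 0) - a p * af n =
        3 * (d1 - a p * d3) := by
      linear_combination hd1 - a p * hd3 + hrel
    have h2 := congrArg (Int.cast : ℤ → ℂ) this
    push_cast at h2
    simpa using h2
  · rw [if_neg hpN] at hrel ⊢
    by_cases hpn : p ∣ n
    · rw [if_pos hpn] at hrel ⊢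
      refine ⟨d1 + u * af (n / p) + chiNegThree p * d2 - a p * d3, ?_⟩
      have : af (p * n) + (p : ℤ) * af (n / p) - a p * af n =
          3 * (d1 + u * af (n / p) + chiNegThree p * d2 - a p * d3) := by
        linear_combination hd1 - a p * hd3 + hrel + af (n / p) * hu + chiNegThree p * hd2
      have h2 := congrArg (Int.cast : ℤ → ℂ) this
      push_cast at h2
      simpa using h2
    · rw [if_neg hpn] at hrel ⊢
      refine ⟨d1 - a p * d3, ?_⟩
      have : af (p * n) + (p : ℤ) * 0 - a p * af n = 3 * (d1 - a p * d3) := by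
        linear_combination hd1 - a p * hd3 + hrel
      have h2 := congrArg (Int.cast : ℤ → ℂ) this
      push_cast at h2
      simpa using h2

end facts

end Fermat.Agent.S49.M3
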