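import Fermat.Agent.S49.M3.Lattice

set_option autoImplicit false
open CuspForm CongruenceSubgroup ModularFormClass UpperHalfPlane

namespace Fermat.Agent.S49.M3

/-- The weight-2 trivial-character "nebentypus factor" `p ↦ p` (or `0` at primes dividing `N`). -/
noncomputable def e2 (N : ℕ) : ℕ → ℂ := fun p => if p ∣ N then 0 else (p : ℂ)

/-- The generator of the Hecke algebra at `p` (`U_p` if `p ∣ N`, else `T_p`). -/
noncomputable def gen (N : ℕ) [NeZero N] (p : ℕ) (hp : p.Prime) : heckeAlgebra N 2 ∅ :=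
  if h : p ∣ N then heckeAlgebra.U hp h (Set.notMem_empty _)
  else heckeAlgebra.T hp h (Set.notMem_empty _)

variable {N : ℕ} [NeZero N]

theorem qc_gen (p : ℕ) (hp : p.Prime) (f : CuspForm (Gamma0 N) 2) (n : ℕ) :
    qc N 2 n ((gen N p hp : Module.End ℂ (CuspForm (Gamma0 N) 2)) f) =
      qc N 2 (p * n) f + e2 N p * (if p ∣ n then qc N 2 (n / p) f else 0) := by
  unfold gen e2
  by_cases h : p ∣ N
  · rw [dif_pos h, if_pos h, heckeAlgebra.coe_U, qc_heckeULin hp.ne_zero, mul_comm]
    simp
  · rw [dif_neg h, if_neg h, heckeAlgebra.coe_T, qc_heckeTLin, mul_comm]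
    split_ifs <;> simp

theorem qc_one_ne_zero (v : CuspForm (Gamma0 N) 2) (hv : v ≠ 0) (c : ∀ p : ℕ, p.Prime → ℂ)
    (h : ∀ p hp, (gen N p hp : Module.End ℂ (CuspForm (Gamma0 N) 2)) v = c p hp • v) :
    qc N 2 1 v ≠ 0 := by
  intro h1
  apply hv
  apply eq_zero_of_qc
  intro n
  induction n using Nat.strong_induction_on with
  | _ n ih =>
    rcases Nat.lt_or_ge n 2 with hn | hn
    · interval_cases n
      · exact qc_zero v
      · exact h1
    · have hp : n.minFac.Prime := Nat.minFac_prime (by omega)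
      obtain ⟨m, hm⟩ := Nat.minFac_dvd n
      set p := n.minFac with hpdef
      have hp2 : 2 ≤ p := hp.two_le
      have hm0 : 0 < m := by
        rcases Nat.eq_zero_or_pos m with h0 | h0
        · subst h0; omega
        · exact h0
      have hmn : m < n := by
        rw [hm]; nlinarith
      have key := qc_gen p hp v m
      rw [h p hp, map_smul, ih m hmn, ← hm] at key
      have h2 : (if p ∣ m then qc N 2 (m / p) v else 0) = 0 := by
        split_ifs
        · exact ih _ (lt_of_le_of_lt (Nat.div_le_self _ _) hmn)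
        · rfl
      rw [h2] at key
      simpa using key.symm

theorem exists_normalized (v : CuspForm (Gamma0 N) 2) (hv : v ≠ 0) (c : ∀ p : ℕ, p.Prime → ℂ)
    (h : ∀ p hp, (gen N p hp : Module.End ℂ (CuspForm (Gamma0 N) 2)) v = c p hp • v) :
    ∃ g : CuspForm (Gamma0 N) 2,
      FormalHecke.IsEigensystem (e2 N) (fun n => qc N 2 n g) ∧
      ∀ p hp, qc N 2 p g = c p hp := by
  have h1 := qc_one_ne_zero v hv c h
  set g := (qc N 2 1 v)⁻¹ • v with hg
  have hg1 : qc N 2 1 g = 1 := by
    rw [hg, map_smul, smul_eq_mul, inv_mul_cancel₀ h1]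
  have hgen : ∀ p hp, (gen N p hp : Module.End ℂ (CuspForm (Gamma0 N) 2)) g = c p hp • g := by
    intro p hp
    rw [hg, map_smul, h p hp, smul_comm]
  have hrel : ∀ p (hp : p.Prime) (n : ℕ), qc N 2 (p * n) g +
      e2 N p * (if p ∣ n then qc N 2 (n / p) g else 0) = c p hp * qc N 2 n g := by
    intro p hp n
    rw [← qc_gen p hp g n, hgen p hp, map_smul, smul_eq_mul]
  have hc : ∀ p hp, qc N 2 p g = c p hp := by
    intro p hp
    have := hrel p hp 1
    rw [if_neg (by simpa using hp.ne_one), hg1] at this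
    simpa using this
  refine ⟨g, ⟨hg1, ?_⟩, hc⟩
  intro p hp n
  simp only
  rw [hrel p hp n, hc p hp]

end Fermat.Agent.S49.M3
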