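import Fermat.Statements.S49
import Fermat.Prelude.Def_CuspForm_HeckeAlgebra
import Fermat.Prelude.Def_CuspForm_IntegralStructure
import Fermat.Prelude.Thm_CuspForm_intLattice_fg
import Fermat.Prelude.Thm_CuspForm_mem_intLattice_of_mem_heckeAlgebra
import Fermat.Prelude.Thm_ModularFormClass_qCoeff_heckeT
import Fermat.Prelude.Thm_ModularFormClass_qCoeff_heckeU
import Fermat.Prelude.Thm_CongruenceSubgroup_one_mem_strictPeriods_Gamma0
import Fermat.Prelude.Thm_UpperHalfPlane_eq_of_forall_qCoeff_eq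

set_option autoImplicit false
open CuspForm CongruenceSubgroup ModularFormClass UpperHalfPlane

namespace Fermat.Agent.S49.M3

variable {N : ℕ} {k : ℤ}

/-- The `n`-th `q`-coefficient as a `ℂ`-linear functional on cusp forms. -/
noncomputable def qc (N : ℕ) (k : ℤ) (n : ℕ) : CuspForm (Gamma0 N) k →ₗ[ℂ] ℂ where
  toFun f := qCoeff (⇑f) n
  map_add' f g := by
    unfold qCoeff
    rw [FunLike.coe_add, ModularForm.qExpansion_add one_pos (one_mem_strictPeriods_Gamma0 N) f g]
    simp
  map_smul' c f := by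
    unfold qCoeff
    rw [FunLike.coe_smul,
      ModularForm.qExpansion_smul one_pos (one_mem_strictPeriods_Gamma0 N) c f]
    simp

theorem qc_apply (n : ℕ) (f : CuspForm (Gamma0 N) k) : qc N k n f = qCoeff (⇑f) n := rfl

theorem qc_zero (f : CuspForm (Gamma0 N) k) : qc N k 0 f = 0 :=
  CuspFormClass.qExpansion_coeff_zero f one_pos (one_mem_strictPeriods_Gamma0 N)

theorem eq_zero_of_qc (f : CuspForm (Gamma0 N) k) (h : ∀ n, qc N k n f = 0) : f = 0 := by
  have hΓ := one_mem_strictPeriods_Gamma0 N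
  have : Fact (IsCusp OnePoint.infty (Subgroup.map (Matrix.SpecialLinearGroup.mapGL ℝ) (Gamma0 N))) :=
    ⟨Subgroup.isCusp_of_mem_strictPeriods one_pos hΓ⟩
  have h0 : qExpansion 1 (⇑f) = 0 := by
    ext n
    exact h n
  rw [UpperHalfPlane.qExpansion_eq_zero_iff one_pos
    (SlashInvariantFormClass.periodic_comp_ofComplex f hΓ) (holo f) (bdd_at_infty f)] at h0
  exact DFunLike.coe_injective h0

theorem qc_heckeTLin {p : ℕ} (hp : p.Prime) (hpN : ¬ p ∣ N) (f : CuspForm (Gamma0 N) k) (n : ℕ) :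
    qc N k n (heckeTLin k hp hpN f) =
      qc N k (n * p) f + if p ∣ n then (p : ℂ) ^ (k - 1) * qc N k (n / p) f else 0 := by
  rw [qc_apply, coe_heckeTLin_apply,
    ModularFormClass.qCoeff_heckeT f (one_mem_strictPeriods_Gamma0 N) hp.ne_zero]
  rfl

theorem qc_heckeULin [NeZero N] {p : ℕ} (hp : p ≠ 0) (hpN : p ∣ N) (f : CuspForm (Gamma0 N) k)
    (n : ℕ) :
    qc N k n (heckeULin k hpN f) = qc N k (n * p) f := by
  rw [qc_apply, coe_heckeULin_apply,
    ModularFormClass.qCoeff_heckeU f (one_mem_strictPeriods_Gamma0 N) hp]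
  rfl

end Fermat.Agent.S49.M3
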